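import Mathlib
import Fermat.Agent.Lib.GoodRed.Defs
import Fermat.Agent.MU.S24.EmbF

section MergeWrap_Lib_GoodRed_Small_Statements -- from Lib/GoodRed/Small/Statements.lean

/-!
# Cluster B / GoodRed (23): the primes `ℓ = 2, 3` — statements
Sub-architect: helper12.  Blueprint: NOTES/blueprint-B-GoodRed-23.md.  Namespace `Fermat.Agent.GoodRedSmall`.
ONLY definitions here (no theorem, no proof obligations).  Provers end their files with
`theorem ... : <Prop defined here>`.

Idea.  For `x = j` the branch values `0, 1728, ∞` collide mod `2` and mod `3`.  Replace `j` by a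
Hauptmodul `x` of `X₀(2)` (for every ODD `ℓ`) resp. `X₀(3)` (for every `ℓ ≠ 3`), at a level `M`
divisible by `2` resp. `3`:
  `j x² = (x + 256)³`          branch values of `F_M / K(x)`:  `0, -64, ∞`   (distinct mod `ℓ ≠ 2`)
  `j x³ = (x + 27)(x + 243)³`  branch values of `F_M / K(x)`:  `0, -27, ∞`   (distinct mod `ℓ ≠ 3`).
NO eta quotients and NO `q`-series identities: `x` exists because `X₀(2)`, `X₀(3)` have genus `0`
(S24 + Riemann–Roch), and the relation is FORCED by the fibres of `j` (S24) — a tiny rigidity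
computation.
-/

set_option autoImplicit false

namespace Fermat.Agent.GoodRedSmall

open AlgebraicCurve Polynomial IntermediateField
open Fermat.Agent.S24 Fermat.Agent.GoodRed

noncomputable section

/-- The function field of `X₀(N)` over `ℚ̄` (Prelude). -/
abbrev FBar (N : ℕ) : Type := ↥(ModularCurve.modularFunctionFieldBar N)

/-- `x` is a Hauptmodul of `X₀(2)` inside `F_N`, normalised: `j x² = (x + 256)³`. -/
def IsT2 {N : ℕ} [NeZero N] (x : FBar N) : Prop := jBar N * x ^ 2 = (x + 256) ^ 3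

/-- `x` is a Hauptmodul of `X₀(3)` inside `F_N`, normalised: `j x³ = (x + 27)(x + 243)³`. -/
def IsT3 {N : ℕ} [NeZero N] (x : FBar N) : Prop := jBar N * x ^ 3 = (x + 27) * (x + 243) ^ 3

/-- (S0) ramification of `F_N / K(j)` divides the order of the stabiliser. -/
def OrdDvd (N : ℕ) [NeZero N] : Prop :=
  ∀ (c : Kbar) (v : Place Kbar (FBar N)),
    0 < v.ord (jBar N - algebraMap Kbar (FBar N) c) →
      (c = 0 → v.ord (jBar N - algebraMap Kbar (FBar N) c) ∣ 3) ∧
      (c = 1728 → v.ord (jBar N - algebraMap Kbar (FBar N) c) ∣ 2) ∧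
      (c ≠ 0 → c ≠ 1728 → v.ord (jBar N - algebraMap Kbar (FBar N) c) = 1)

/-- (S0∞) the cusp `∞`: a place at which `j` has a SIMPLE pole. -/
def SimplePole (N : ℕ) [NeZero N] : Prop :=
  ∃ v : Place Kbar (FBar N), v.ord (jBar N) = -1

/-- (S1) existence of the Hauptmodul at level `2`. -/
def ExistsT2 : Prop := ∃ x : FBar 2, IsT2 x

/-- (S1) existence of the Hauptmodul at level `3`. -/
def ExistsT3 : Prop := ∃ x : FBar 3, IsT3 x

/-- (S1') the Hauptmodul of level `2` at every even level. -/
def ExistsT2At (M : ℕ) [NeZero M] : Prop := ∃ x : FBar M, IsT2 x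

/-- (S1') the Hauptmodul of level `3` at every level divisible by `3`. -/
def ExistsT3At (M : ℕ) [NeZero M] : Prop := ∃ x : FBar M, IsT3 x

/-- (S2) `F_M / K(x)` is unramified outside `x = 0, -64, ∞`, in the "places" form. -/
def UnramT2 (M : ℕ) [NeZero M] : Prop :=
  ∀ x : FBar M, IsT2 x → ∀ c : Kbar, c ≠ 0 → c ≠ -64 →
    Nat.card {v : Place Kbar (FBar M) // 0 < v.ord (x - algebraMap Kbar (FBar M) c)} =
      Module.finrank Kbar⟮x⟯ (FBar M)

/-- (S2) `F_M / K(x)` is unramified outside `x = 0, -27, ∞`, in the "places" form. -/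
def UnramT3 (M : ℕ) [NeZero M] : Prop :=
  ∀ x : FBar M, IsT3 x → ∀ c : Kbar, c ≠ 0 → c ≠ -27 →
    Nat.card {v : Place Kbar (FBar M) // 0 < v.ord (x - algebraMap Kbar (FBar M) c)} =
      Module.finrank Kbar⟮x⟯ (FBar M)

variable {K k F Fk : Type} [Field K] [Field k] [Field F] [Field Fk] [Algebra K F] [Algebra k Fk]

/-- The reduction datum with the base parameter replaced by `x'`. -/
def swapX (M : RedModel K k F Fk) (x' : F) (hx : x' ∈ M.O)
    (htr : Transcendental k (M.rho ⟨x', hx⟩)) : RedModel K k F Fk :=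
  { M with x := x', x_mem := hx, x_trans := htr }

/-- `x'` is related to the base parameter `j = M.x` by `j * Q(x') = P(x')`, `P, Q ∈ A[X]`,
`P` monic, `deg Q < deg P`, and the reductions of `P`, `Q` are coprime. -/
structure HauptRel (M : RedModel K k F Fk) (x' : F) (P Q : Polynomial M.A) : Prop where
  monic : P.Monic
  deg_lt : Q.degree < P.degree
  rel : M.x * Polynomial.aeval x' (Q.map M.A.subtype) = Polynomial.aeval x' (P.map M.A.subtype)
  coprime : IsCoprime (P.map M.res) (Q.map M.res)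

/-- (S3a) `x'` is in the Gauss ring and its reduction is transcendental. -/
def SwapMem : Prop :=
  ∀ (K k F Fk : Type) [Field K] [Field k] [Field F] [Field Fk] [Algebra K F] [Algebra k Fk]
    (M : RedModel K k F Fk) (x' : F) (P Q : Polynomial M.A), HauptRel M x' P Q →
      ∃ hx : x' ∈ M.O, Transcendental k (M.rho ⟨x', hx⟩)

/-- (S3b) the degree data pass from `j` to `x'` (degree `n' = [F : K(x')]`). -/
def SwapDeg : Prop :=
  ∀ (K k F Fk : Type) [Field K] [Field k] [Field F] [Field Fk] [Algebra K F] [Algebra k Fk]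
    (M : RedModel K k F Fk) (n : ℕ), DegData M n →
    ∀ (x' : F) (P Q : Polynomial M.A), HauptRel M x' P Q →
    ∀ (hx : x' ∈ M.O) (htr : Transcendental k (M.rho ⟨x', hx⟩)),
      DegData (swapX M x' hx htr) (Module.finrank K⟮x'⟯ F)

/-- (S4) FINAL OUTPUT for odd `ℓ` (in particular `ℓ = 3`), level `N` even: from the reduction
datum with `x = j` and its degree data, a reduction datum with the same rings and `x` = the
Hauptmodul of `X₀(2)`, with degree data and branch data `S = {0, -64}`. -/
def BranchT2 (N : ℕ) [NeZero N] : Prop :=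
  ∀ (k Fk : Type) [Field k] [Field Fk] [Algebra k Fk] [IsAlgClosed k]
    (M : RedModel Kbar k (FBar N) Fk) (n : ℕ), M.x = jBar N → DegData M n → (2 : k) ≠ 0 →
    ∀ x : FBar N, IsT2 x →
      ∃ (hx : x ∈ M.O) (htr : Transcendental k (M.rho ⟨x, hx⟩)) (n' : ℕ),
        DegData (swapX M x hx htr) n' ∧
        ∃ BD : BranchData (swapX M x hx htr) n', ∀ c : Kbar, c ∈ BD.S ↔ c = 0 ∨ c = -64

/-- (S4) FINAL OUTPUT for `ℓ ≠ 3` (in particular `ℓ = 2`), level `N` divisible by `3`. -/
def BranchT3 (N : ℕ) [NeZero N] : Prop :=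
  ∀ (k Fk : Type) [Field k] [Field Fk] [Algebra k Fk] [IsAlgClosed k]
    (M : RedModel Kbar k (FBar N) Fk) (n : ℕ), M.x = jBar N → DegData M n → (3 : k) ≠ 0 →
    ∀ x : FBar N, IsT3 x →
      ∃ (hx : x ∈ M.O) (htr : Transcendental k (M.rho ⟨x, hx⟩)) (n' : ℕ),
        DegData (swapX M x hx htr) n' ∧
        ∃ BD : BranchData (swapX M x hx htr) n', ∀ c : Kbar, c ∈ BD.S ↔ c = 0 ∨ c = -27

end

end Fermat.Agent.GoodRedSmall
end MergeWrap_Lib_GoodRed_Small_Statements
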